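import Fermat.Agent.S56.H186.TameCyclic
import Fermat.Prelude.Def_GaloisRep_Residual

/-!
# S56 / leaf TAME-CYC (helper186): the statements over `ℚ̄ = AlgebraicClosure ℚ`

Exactly in the vocabulary of the Prelude (`ValuationSubring.LiesOverPrime`,
`ValuationSubring.inertiaSubgroupIn ℚ`, `ValuationSubring.IsFrobeniusAt`,
finite level = `∃ E : IntermediateField ℚ ℚ̄, FiniteDimensional ℚ E ∧ …`).

* `tame_cyclic` : image of inertia at `q` under a finite-level `π` with `p`-power torsion image on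
  inertia (`p` prime to `q`) is generated by one element `π τ₀`, `τ₀` in the inertia group.
* `tame_frobenius` : `π (φ σ φ⁻¹) = π σ ^ q` for a Frobenius `φ` and `σ` in the inertia group.
-/

set_option autoImplicit false

namespace Fermat.Agent.S56.H186

theorem isAlgebraic_Qbar_h186 : Algebra.IsAlgebraic ℚ (AlgebraicClosure ℚ) :=
  AlgebraicClosure.isAlgebraic ℚ

variable (A : ValuationSubring (AlgebraicClosure ℚ)) {q : ℕ}
  {Γ : Type*} [Monoid Γ] (π : (AlgebraicClosure ℚ ≃ₐ[ℚ] AlgebraicClosure ℚ) →* Γ)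

/-- **TAME-CYC (CYC).** -/
theorem tame_cyclic (hq : A.LiesOverPrime q) (hqp : q.Prime)
    (hlevel : ∃ E : IntermediateField ℚ (AlgebraicClosure ℚ), FiniteDimensional ℚ E ∧
      ∀ σ : AlgebraicClosure ℚ ≃ₐ[ℚ] AlgebraicClosure ℚ, (∀ x ∈ E, σ x = x) → π σ = 1)
    {p : ℕ} (hpq : Nat.Coprime p q)
    (hp : ∀ σ ∈ A.inertiaSubgroupIn ℚ, ∃ a : ℕ, π σ ^ (p ^ a) = 1) :
    ∃ τ₀ ∈ A.inertiaSubgroupIn ℚ, ∀ σ ∈ A.inertiaSubgroupIn ℚ, ∃ j : ℕ, π σ = π τ₀ ^ j :=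
  haveI := isAlgebraic_Qbar_h186
  exists_generator_inertia_image A π hq hqp hlevel hpq hp

/-- **TAME-CYC (FROB).** -/
theorem tame_frobenius (hq : A.LiesOverPrime q) (hqp : q.Prime)
    (hlevel : ∃ E : IntermediateField ℚ (AlgebraicClosure ℚ), FiniteDimensional ℚ E ∧
      ∀ σ : AlgebraicClosure ℚ ≃ₐ[ℚ] AlgebraicClosure ℚ, (∀ x ∈ E, σ x = x) → π σ = 1)
    {p : ℕ} (hpq : Nat.Coprime p q)
    (hp : ∀ σ ∈ A.inertiaSubgroupIn ℚ, ∃ a : ℕ, π σ ^ (p ^ a) = 1)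
    {φ : AlgebraicClosure ℚ ≃ₐ[ℚ] AlgebraicClosure ℚ} (hφ : A.IsFrobeniusAt φ q)
    {σ : AlgebraicClosure ℚ ≃ₐ[ℚ] AlgebraicClosure ℚ} (hσ : σ ∈ A.inertiaSubgroupIn ℚ) :
    π (φ * σ * φ⁻¹) = π σ ^ q :=
  haveI := isAlgebraic_Qbar_h186
  map_frobenius_conj_inertia A π hq hqp hlevel hpq hp hφ hσ

/-- Test against the Prelude: a residual representation `ρbar` has finite level in the
sense required above. -/
example {k : Type} [Field k] (ρbar : ResidualGaloisRep k) :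
    ∃ E : IntermediateField ℚ (AlgebraicClosure ℚ), FiniteDimensional ℚ E ∧
      ∀ σ : AlgebraicClosure ℚ ≃ₐ[ℚ] AlgebraicClosure ℚ, (∀ x ∈ E, σ x = x) → ρbar.ρ σ = 1 :=
  ρbar.factorsThroughFiniteLevel

end Fermat.Agent.S56.H186
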