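import Mathlib
import Fermat.Agent.A2.H708.Tame

/-!
# S56 / leaf TAME-CYC (helper186), part 1: value group facts

`A` a valuation subring of a field `L`, algebraic over `K`.

* `exists_ne_valuation_eq_of_sum_eq_zero` : in a vanishing sum with a nonzero term, two different
  terms have the same nonzero valuation.
* `exists_pow_valuation_eq` : for `x ≠ 0` algebraic over `K` there are `0 < n ≤ deg (minpoly x)` and
  `a ∈ Kˣ` with `v x ^ n = v a`.
* `valuation_natCast_eq_one_of_coprime`, `exists_valuation_rat_eq_zpow` : if `A` lies over the prime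
  `q`, then `v (ℚˣ) = v q ^ ℤ`.
* `exists_valuation_eq_zpow_root` : if `c ^ N = q` and `N` is divisible by all `n ≤ d`, then
  `v x ∈ v c ^ ℤ` for every `x ≠ 0` whose minimal polynomial has degree `≤ d`.
-/

set_option autoImplicit false
set_option linter.unusedSectionVars false

namespace Fermat.Agent.S56.H186

open Polynomial

section General

variable {R : Type*} [Ring R] {Γ₀ : Type*} [LinearOrderedCommGroupWithZero Γ₀]
  (v : Valuation R Γ₀)

/-- In a vanishing finite sum having a term of nonzero valuation, two different terms have the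
same nonzero valuation. -/
theorem exists_ne_valuation_eq_of_sum_eq_zero {ι : Type*} [DecidableEq ι] (s : Finset ι)
    (f : ι → R) (hsum : ∑ i ∈ s, f i = 0) (hne : ∃ i ∈ s, v (f i) ≠ 0) :
    ∃ i ∈ s, ∃ j ∈ s, i ≠ j ∧ v (f i) = v (f j) ∧ v (f i) ≠ 0 := by
  obtain ⟨i₀, hi₀, hv₀⟩ := hne
  obtain ⟨j, hj, hmax⟩ := Finset.exists_max_image s (fun i => v (f i)) ⟨i₀, hi₀⟩
  have hj0 : v (f j) ≠ 0 := by
    intro h0
    have := hmax i₀ hi₀
    rw [h0] at this
    exact hv₀ (le_antisymm this zero_le)
  by_contra hcon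
  push Not at hcon
  have hlt : ∀ i ∈ s \ {j}, v (f i) < v (f j) := by
    intro i hi
    rw [Finset.mem_sdiff, Finset.mem_singleton] at hi
    rcases lt_or_eq_of_le (hmax i hi.1) with h | h
    · exact h
    · exfalso
      exact hj0 (hcon j hj i hi.1 (Ne.symm hi.2) h.symm)
  have := v.map_sum_eq_of_lt hj hlt
  rw [hsum, map_zero] at this
  exact hj0 this.symm

end General

section Algebraic

variable {K L : Type*} [Field K] [Field L] [Algebra K L] (A : ValuationSubring L)

/-- For `x ≠ 0` algebraic over `K`, a positive power `n ≤ deg (minpoly x)` of `v x` is the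
valuation of a nonzero element of `K`. -/
theorem exists_pow_valuation_eq {x : L} (hx : x ≠ 0) (hint : IsIntegral K x) :
    ∃ n : ℕ, 0 < n ∧ n ≤ (minpoly K x).natDegree ∧
      ∃ a : K, a ≠ 0 ∧ A.valuation x ^ n = A.valuation (algebraMap K L a) := by
  classical
  set f := minpoly K x with hf
  set d := f.natDegree with hd
  have hsum : ∑ i ∈ Finset.range (d + 1), algebraMap K L (f.coeff i) * x ^ i = 0 := by
    have h := minpoly.aeval K x
    rw [← hf, aeval_eq_sum_range] at h
    simpa [Algebra.smul_def] using h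
  have hvx : A.valuation x ≠ 0 := (Valuation.ne_zero_iff _).mpr hx
  have hmonic : f.coeff d = 1 := (minpoly.monic hint).coeff_natDegree
  have hne : ∃ i ∈ Finset.range (d + 1),
      A.valuation (algebraMap K L (f.coeff i) * x ^ i) ≠ 0 := by
    refine ⟨d, Finset.mem_range.mpr (Nat.lt_succ_self d), ?_⟩
    rw [hmonic, map_one, one_mul, map_pow]
    exact pow_ne_zero _ hvx
  obtain ⟨i, hi, j, hj, hij, heq, hne0⟩ :=
    exists_ne_valuation_eq_of_sum_eq_zero A.valuation _ _ hsum hne
  -- symmetric statement: wlog i < j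
  have key : ∀ i j : ℕ, i < j → j < d + 1 →
      A.valuation (algebraMap K L (f.coeff i) * x ^ i) =
        A.valuation (algebraMap K L (f.coeff j) * x ^ j) →
      A.valuation (algebraMap K L (f.coeff i) * x ^ i) ≠ 0 →
      ∃ n : ℕ, 0 < n ∧ n ≤ d ∧
        ∃ a : K, a ≠ 0 ∧ A.valuation x ^ n = A.valuation (algebraMap K L a) := by
    intro i j hlt hjd heq hne0
    have hci : f.coeff i ≠ 0 := by
      intro h0
      apply hne0
      rw [h0, map_zero, zero_mul, map_zero]
    have hcj : f.coeff j ≠ 0 := by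
      intro h0
      apply hne0
      rw [heq, h0, map_zero, zero_mul, map_zero]
    refine ⟨j - i, Nat.sub_pos_of_lt hlt, by omega, f.coeff i / f.coeff j,
      div_ne_zero hci hcj, ?_⟩
    have hvj : A.valuation (algebraMap K L (f.coeff j)) ≠ 0 :=
      (Valuation.ne_zero_iff _).mpr (by simpa using hcj)
    have hxi : A.valuation x ^ i ≠ 0 := pow_ne_zero _ hvx
    rw [map_mul, map_mul, map_pow, map_pow] at heq
    rw [map_div₀, map_div₀, eq_div_iff hvj]
    have hji : j = (j - i) + i := by omega
    have h2 : A.valuation x ^ j = A.valuation x ^ (j - i) * A.valuation x ^ i := by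
      conv_lhs => rw [hji, pow_add]
    rw [h2] at heq
    have h3 : A.valuation (algebraMap K L (f.coeff i)) * A.valuation x ^ i =
        (A.valuation x ^ (j - i) * A.valuation (algebraMap K L (f.coeff j))) *
          A.valuation x ^ i := by
      rw [heq]; ac_rfl
    exact (mul_right_cancel₀ hxi h3).symm
  rcases lt_or_gt_of_ne hij with h | h
  · exact key i j h (Finset.mem_range.mp hj) heq hne0
  · exact key j i h (Finset.mem_range.mp hi) heq.symm (heq ▸ hne0)

/-- General form: if the valuations of `Kˣ` are powers of `v π`, `c ^ N = π` and `N` is divisible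
by every `0 < n ≤ d`, then the valuation of every nonzero `x` of degree `≤ d` over `K` is an
integral power of `v c`. -/
theorem exists_valuation_eq_zpow_root_of {π : L}
    (hK : ∀ a : K, a ≠ 0 → ∃ m : ℤ, A.valuation (algebraMap K L a) = A.valuation π ^ m)
    {N d : ℕ} (hN : ∀ n : ℕ, 0 < n → n ≤ d → n ∣ N) {c : L} (hc : c ^ N = π) {x : L}
    (hx : x ≠ 0) (hint : IsIntegral K x) (hdeg : (minpoly K x).natDegree ≤ d) :
    ∃ m : ℤ, A.valuation x = A.valuation c ^ m := by
  obtain ⟨n, hn0, hnd, a, ha, hxa⟩ := exists_pow_valuation_eq A hx hint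
  obtain ⟨m, hm⟩ := hK a ha
  obtain ⟨N', rfl⟩ := hN n hn0 (hnd.trans hdeg)
  refine ⟨N' * m, ?_⟩
  have h1 : A.valuation x ^ n = (A.valuation c ^ ((N' : ℤ) * m)) ^ n := by
    rw [hxa, hm, ← hc, map_pow, ← zpow_natCast (A.valuation c ^ ((N' : ℤ) * m)) n,
      ← zpow_natCast (A.valuation c) (n * N'), ← zpow_mul, ← zpow_mul]
    congr 1
    push_cast; ring
  exact (pow_left_inj hn0.ne').mp h1

end Algebraic

section Rat

variable {L : Type*} [Field L] [Algebra ℚ L] (A : ValuationSubring L) {q : ℕ}

theorem valuation_natCast_le_one (n : ℕ) : A.valuation (n : L) ≤ 1 :=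
  (A.valuation_le_one_iff _).mpr (natCast_mem A n)

theorem valuation_intCast_le_one (n : ℤ) : A.valuation (n : L) ≤ 1 :=
  (A.valuation_le_one_iff _).mpr (intCast_mem A n)

/-- Integers prime to `q` are units of a valuation subring lying over `q`. -/
theorem valuation_natCast_eq_one_of_coprime (hq : A.LiesOverPrime q) {n : ℕ}
    (hn : Nat.Coprime n q) : A.valuation (n : L) = 1 := by
  obtain ⟨a, b, hab⟩ := Nat.isCoprime_iff_coprime.mpr hn
  have hq1 : A.valuation (q : L) < 1 := A.mem_nonunits_iff.mp hq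
  have hL : (a : L) * (n : L) = 1 - (b : L) * (q : L) := by
    have := congrArg (Int.cast : ℤ → L) hab
    push_cast at this
    rw [← this]; ring
  have hbq : A.valuation ((b : L) * (q : L)) < 1 := by
    rw [map_mul]
    calc A.valuation (b : L) * A.valuation (q : L) ≤ 1 * A.valuation (q : L) :=
          mul_le_mul' (valuation_intCast_le_one A b) le_rfl
      _ = A.valuation (q : L) := one_mul _
      _ < 1 := hq1
  have h1 : A.valuation ((a : L) * (n : L)) = 1 := by
    rw [hL]; exact Valuation.map_one_sub_of_lt _ hbq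
  rw [map_mul] at h1
  refine le_antisymm (valuation_natCast_le_one A n) ?_
  calc (1 : A.ValueGroup) = A.valuation (a : L) * A.valuation (n : L) := h1.symm
    _ ≤ 1 * A.valuation (n : L) := mul_le_mul' (valuation_intCast_le_one A a) le_rfl
    _ = A.valuation (n : L) := one_mul _

theorem exists_valuation_natCast_eq_pow (hq : A.LiesOverPrime q) (hqp : q.Prime) {n : ℕ}
    (hn : n ≠ 0) : ∃ i : ℕ, A.valuation (n : L) = A.valuation (q : L) ^ i := by
  obtain ⟨i, n', hn', rfl⟩ := Nat.exists_eq_pow_mul_and_not_dvd hn q hqp.ne_one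
  refine ⟨i, ?_⟩
  have hc : Nat.Coprime n' q := ((Nat.Prime.coprime_iff_not_dvd hqp).mpr hn').symm
  rw [Nat.cast_mul, Nat.cast_pow, map_mul, map_pow, valuation_natCast_eq_one_of_coprime A hq hc,
    mul_one]

theorem exists_valuation_intCast_eq_pow (hq : A.LiesOverPrime q) (hqp : q.Prime) {n : ℤ}
    (hn : n ≠ 0) : ∃ i : ℕ, A.valuation (n : L) = A.valuation (q : L) ^ i := by
  obtain ⟨i, hi⟩ := exists_valuation_natCast_eq_pow A hq hqp (Int.natAbs_ne_zero.mpr hn)
  refine ⟨i, ?_⟩
  rw [← hi]
  rcases Int.natAbs_eq n with h | h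
  · conv_lhs => rw [h]
    simp
  · conv_lhs => rw [h]
    simp

/-- The valuation of a nonzero rational number is an integral power of `v q`. -/
theorem exists_valuation_rat_eq_zpow (hq : A.LiesOverPrime q) (hqp : q.Prime) {a : ℚ}
    (ha : a ≠ 0) : ∃ m : ℤ, A.valuation (algebraMap ℚ L a) = A.valuation (q : L) ^ m := by
  obtain ⟨i, hi⟩ := exists_valuation_intCast_eq_pow A hq hqp (Rat.num_ne_zero.mpr ha)
  obtain ⟨j, hj⟩ := exists_valuation_natCast_eq_pow A hq hqp a.den_ne_zero
  refine ⟨(i : ℤ) - j, ?_⟩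
  have h1 : algebraMap ℚ L a = (a.num : L) / (a.den : L) := by
    rw [eq_ratCast, Rat.cast_def]
  have hq0 : A.valuation (q : L) ≠ 0 := by
    haveI : CharZero L := charZero_of_injective_ringHom (algebraMap ℚ L).injective
    exact (Valuation.ne_zero_iff _).mpr (Nat.cast_ne_zero.mpr hqp.ne_zero)
  rw [h1, map_div₀, hi, hj, zpow_sub₀ hq0, zpow_natCast, zpow_natCast]

/-- If `c ^ N = q` with `N` divisible by every `0 < n ≤ d`, then the valuation of every nonzero
`x` of degree `≤ d` over `ℚ` is an integral power of `v c`. -/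
theorem exists_valuation_eq_zpow_root (hq : A.LiesOverPrime q) (hqp : q.Prime) {N d : ℕ}
    (hN : ∀ n : ℕ, 0 < n → n ≤ d → n ∣ N) {c : L} (hc : c ^ N = (q : L)) {x : L} (hx : x ≠ 0)
    (hint : IsIntegral ℚ x) (hdeg : (minpoly ℚ x).natDegree ≤ d) :
    ∃ m : ℤ, A.valuation x = A.valuation c ^ m :=
  exists_valuation_eq_zpow_root_of A (fun _ ha => exists_valuation_rat_eq_zpow A hq hqp ha)
    hN hc hx hint hdeg

end Rat

end Fermat.Agent.S56.H186
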