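import Mathlib
import Fermat.Agent.A2.H708.Tame

/-!
# S56 / leaf TAME-CYC (helper186), part 2: the kernel of the tame character is "wild"

`L/K` algebraic, `A` a valuation subring of `L`, `τ` in the inertia group of `A` (Prelude form).

* `valuation_pow_apply_sub_lt` : if `v (τ x - x) < v x` then `v (τ ^ j x - x) < v x` for all `j`.
* `apply_eq_of_pow_apply_eq` : if `τ ^ ℓ` fixes `y`, `ℓ` is a unit of `A`, and the tame character of
  `τ` is trivial at `τ y - y`, then `τ` fixes `y` (trace argument).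
* `exists_pow_fixes_of_tame_trivial` : if the tame character of `τ` is trivial on a `τ`-stable
  subfield `E` on which `τ ^ n` is trivial (`n > 0`), and all primes `≠ q` are units of `A`, then
  `τ ^ (q ^ a)` is trivial on `E` for some `a`.
-/

set_option autoImplicit false
set_option linter.unusedSectionVars false

namespace Fermat.Agent.S56.H186

open Fermat.Agent.A2.H708

variable {K L : Type*} [Field K] [Field L] [Algebra K L] [Algebra.IsAlgebraic K L]
  (A : ValuationSubring L)

theorem pow_succ_apply' (τ : L ≃ₐ[K] L) (j : ℕ) (x : L) : (τ ^ (j + 1)) x = τ ((τ ^ j) x) := by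
  rw [pow_succ']; rfl

/-- If `τ` moves `x` by less than `v x`, so does every power of `τ`. -/
theorem valuation_pow_apply_sub_lt {τ : L ≃ₐ[K] L} (hτ : τ ∈ A.decompositionSubgroup K) {x : L}
    (hx : A.valuation (τ x - x) < A.valuation x) (j : ℕ) :
    A.valuation ((τ ^ j) x - x) < A.valuation x := by
  induction j with
  | zero =>
    have h0 : (τ ^ 0) x - x = 0 := by simp
    rw [h0, map_zero]
    exact lt_of_le_of_lt zero_le hx
  | succ j ih =>
    have h1 : (τ ^ (j + 1)) x - x = τ ((τ ^ j) x - x) + (τ x - x) := by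
      rw [pow_succ_apply', map_sub]; ring
    rw [h1]
    refine lt_of_le_of_lt (Valuation.map_add _ _ _) (max_lt ?_ hx)
    rw [valuation_apply_of_mem_decomposition A hτ]
    exact ih

/-- Trace argument: an inertia element `τ` such that `τ ^ ℓ` fixes `y`, with `ℓ` a unit of `A`
and trivial tame character at `τ y - y`, fixes `y`. -/
theorem apply_eq_of_pow_apply_eq {τ : L ≃ₐ[K] L} (hτ : τ ∈ A.decompositionSubgroup K) {ℓ : ℕ}
    (hℓ : A.valuation (ℓ : L) = 1) {y : L} (hy : (τ ^ ℓ) y = y)
    (htame : τ y - y ≠ 0 →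
      A.valuation (τ (τ y - y) - (τ y - y)) < A.valuation (τ y - y)) :
    τ y = y := by
  by_contra hne
  set x := τ y - y with hx
  have hx0 : x ≠ 0 := sub_ne_zero.mpr hne
  have hvx : A.valuation x ≠ 0 := (Valuation.ne_zero_iff _).mpr hx0
  have hlt := htame hx0
  -- telescoping sum
  have htel : ∀ n : ℕ, ∑ j ∈ Finset.range n, (τ ^ j) x = (τ ^ n) y - y := by
    intro n
    induction n with
    | zero => simp
    | succ n ih =>
      rw [Finset.sum_range_succ, ih, hx, map_sub]
      have : (τ ^ n) (τ y) = (τ ^ (n + 1)) y := by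
        rw [pow_succ]; rfl
      rw [this]; ring
  have hsum : ∑ j ∈ Finset.range ℓ, (τ ^ j) x = 0 := by rw [htel, hy, sub_self]
  have hsplit : (ℓ : L) * x = - ∑ j ∈ Finset.range ℓ, ((τ ^ j) x - x) := by
    rw [Finset.sum_sub_distrib, hsum, Finset.sum_const, Finset.card_range, nsmul_eq_mul]
    ring
  have h1 : A.valuation ((ℓ : L) * x) = A.valuation x := by rw [map_mul, hℓ, one_mul]
  have h2 : A.valuation (∑ j ∈ Finset.range ℓ, ((τ ^ j) x - x)) < A.valuation x :=
    Valuation.map_sum_lt _ hvx (fun j _ => valuation_pow_apply_sub_lt A hτ hlt j)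
  rw [hsplit, Valuation.map_neg] at h1
  exact absurd h1 (ne_of_lt h2)

/-- The kernel of the tame character acts through a `q`-group: if the tame character of `τ` is
trivial on a `τ`-stable subfield `E` on which some positive power of `τ` is trivial, and all
primes different from `q` are units of `A`, then `τ ^ (q ^ a)` is trivial on `E` for some `a`. -/
theorem exists_pow_fixes_of_tame_trivial {τ : L ≃ₐ[K] L} (hτ : τ ∈ A.decompositionSubgroup K)
    (E : IntermediateField K L) (hE : ∀ y ∈ E, τ y ∈ E)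
    (htame : ∀ x ∈ E, x ≠ 0 → A.valuation (τ x - x) < A.valuation x)
    {q : ℕ} (hq : q.Prime) (hunit : ∀ ℓ : ℕ, ℓ.Prime → ℓ ≠ q → A.valuation (ℓ : L) = 1)
    {n : ℕ} (hn : n ≠ 0) (hfix : ∀ y ∈ E, (τ ^ n) y = y) :
    ∃ a : ℕ, ∀ y ∈ E, (τ ^ (q ^ a)) y = y := by
  obtain ⟨a, m, hm, rfl⟩ := Nat.exists_eq_pow_mul_and_not_dvd hn q hq.ne_one
  refine ⟨a, ?_⟩
  -- stability under powers
  have hEpow : ∀ (k : ℕ), ∀ y ∈ E, (τ ^ k) y ∈ E := by
    intro k
    induction k with
    | zero => intro y hy; simpa using hy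
    | succ k ih => intro y hy; rw [pow_succ_apply']; exact hE _ (ih y hy)
  -- strong induction on m
  have key : ∀ m : ℕ, m ≠ 0 → ¬ q ∣ m → (∀ y ∈ E, (τ ^ (q ^ a * m)) y = y) →
      ∀ y ∈ E, (τ ^ (q ^ a)) y = y := by
    intro m
    induction m using Nat.strong_induction_on with
    | _ m ih =>
      intro hm0 hqm hfix
      rcases eq_or_ne m 1 with rfl | hm1
      · simpa using hfix
      obtain ⟨ℓ, hℓ, m', hm'⟩ : ∃ ℓ : ℕ, ℓ.Prime ∧ ℓ ∣ m :=
        ⟨m.minFac, Nat.minFac_prime hm1, Nat.minFac_dvd m⟩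
      have hℓq : ℓ ≠ q := by
        rintro rfl
        exact hqm ⟨m', hm'⟩
      have hm'0 : m' ≠ 0 := by
        rintro rfl
        rw [mul_zero] at hm'
        exact hm0 hm'
      have hm'lt : m' < m := by
        have h2 : 2 ≤ ℓ := hℓ.two_le
        have hpos : 0 < m' := Nat.pos_of_ne_zero hm'0
        calc m' < 2 * m' := by omega
          _ ≤ ℓ * m' := Nat.mul_le_mul_right _ h2
          _ = m := hm'.symm
      have hqm' : ¬ q ∣ m' := fun h => hqm (hm' ▸ Dvd.dvd.mul_left h _)
      apply ih m' hm'lt hm'0 hqm'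
      intro y hy
      set σ := τ ^ (q ^ a * m') with hσ
      have hσD : σ ∈ A.decompositionSubgroup K := pow_mem hτ _
      have hσℓ : (σ ^ ℓ) y = y := by
        rw [hσ, ← pow_mul]
        have : q ^ a * m' * ℓ = q ^ a * m := by rw [hm']; ring
        rw [this]
        exact hfix y hy
      refine apply_eq_of_pow_apply_eq A hσD (hunit _ hℓ hℓq) hσℓ ?_
      intro hx0
      have hxE : σ y - y ∈ E := E.sub_mem (hEpow _ y hy) hy
      exact valuation_pow_apply_sub_lt A hτ (htame _ hxE hx0) _
  have hm0 : m ≠ 0 := by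
    rintro rfl
    simp at hn
  exact key m hm0 hm hfix

end Fermat.Agent.S56.H186
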