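import Mathlib
import Fermat.Agent.A2.H708.Tame
import Fermat.Agent.S56.H186.TameVal
import Fermat.Agent.S56.H186.TameWild
import Fermat.Prelude.Def_EllipticCurve_FrobeniusTrace

/-!
# S56 / leaf TAME-CYC (helper186), part 3: structure of tame inertia

`L` an algebraically closed algebraic extension of `ℚ` (e.g. `AlgebraicClosure ℚ`), `A` a valuation
subring of `L` lying over the prime `q`, `I = A.inertiaSubgroupIn ℚ` (Prelude form).
`π : Gal(L/ℚ) →* Γ` a monoid hom factoring through a finite level such that every `π σ`, `σ ∈ I`,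
is killed by a power of `p`, `p` prime to `q`.  Then

* `exists_generator_inertia_image` : `∃ τ₀ ∈ I, ∀ σ ∈ I, ∃ j, π σ = π τ₀ ^ j`  (the image of inertia
  is cyclic);
* `map_frobenius_conj_inertia` : `π (φ σ φ⁻¹) = π σ ^ q` for every Frobenius `φ` at `A`
  (Prelude `IsFrobeniusAt φ q`) and `σ ∈ I`.
-/

set_option autoImplicit false
set_option linter.unusedSectionVars false
set_option linter.style.haveILetI false

namespace Fermat.Agent.S56.H186

open Fermat.Agent.A2.H708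

section General

variable {K L : Type*} [Field K] [Field L] [Algebra K L] [Algebra.IsAlgebraic K L]
  (A : ValuationSubring L)

/-- The tame character at `c` as a homomorphism on the inertia group. -/
noncomputable def tameAt (c : Lˣ) :
    ↥(A.inertiaSubgroupIn K) →* (IsLocalRing.ResidueField A)ˣ where
  toFun σ := tameHom A σ.2 c
  map_one' := tameHom_eq_one_of_fixed A _ c rfl
  map_mul' σ τ := tameHom_mul A σ.2 τ.2 c

theorem tameAt_apply (c : Lˣ) (σ : ↥(A.inertiaSubgroupIn K)) :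
    tameAt A c σ = tameHom A σ.2 c := rfl

/-- The underlying residue class of the tame character. -/
theorem coe_tameHom {τ : L ≃ₐ[K] L} (hτ : τ ∈ A.inertiaSubgroupIn K) (c : Lˣ)
    (h : τ (c : L) / c ∈ A) :
    ((tameHom A hτ c : (IsLocalRing.ResidueField A)ˣ) : IsLocalRing.ResidueField A) =
      IsLocalRing.residue A ⟨τ (c : L) / c, h⟩ := by
  show ((A.unitGroupToResidueFieldUnits
    (ratioHom A (mem_decomposition_of_mem_inertiaIn A hτ) c) :
      (IsLocalRing.ResidueField A)ˣ) : IsLocalRing.ResidueField A) = _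
  rw [ValuationSubring.coe_unitGroupToResidueFieldUnits_apply]
  show IsLocalRing.residue A _ = _
  congr 1
  apply Subtype.ext
  rw [ValuationSubring.coe_unitGroupMulEquiv_apply, coe_ratioHom]

theorem apply_div_mem {τ : L ≃ₐ[K] L} (hτ : τ ∈ A.decompositionSubgroup K) (c : Lˣ) :
    τ (c : L) / c ∈ A := by
  rw [← A.valuation_le_one_iff]
  exact (valuation_apply_div_self A hτ c.ne_zero).le

/-- The inertia group (Prelude form) is stable under conjugation by the decomposition group. -/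
theorem conj_mem_inertiaIn {φ σ : L ≃ₐ[K] L} (hφ : φ ∈ A.decompositionSubgroup K)
    (hσ : σ ∈ A.inertiaSubgroupIn K) : φ * σ * φ⁻¹ ∈ A.inertiaSubgroupIn K := by
  obtain ⟨g, hg, rfl⟩ := hσ
  refine ⟨⟨φ, hφ⟩ * g * ⟨φ, hφ⟩⁻¹, ?_, rfl⟩
  have hn : (A.inertiaSubgroup K).Normal := MonoidHom.normal_ker _
  exact hn.conj_mem g hg ⟨φ, hφ⟩

/-- Frobenius raises residue classes to the `q`-th power. -/
theorem residue_apply_of_isFrobeniusAt {φ : L ≃ₐ[K] L} {q : ℕ} (hφ : A.IsFrobeniusAt φ q)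
    {u : L} (hu : u ∈ A) (hφu : φ u ∈ A) :
    IsLocalRing.residue A ⟨φ u, hφu⟩ = IsLocalRing.residue A ⟨u, hu⟩ ^ q := by
  have h := hφ.smul_residue_eq (IsLocalRing.residue A ⟨u, hu⟩)
  rw [← IsLocalRing.ResidueField.residue_smul] at h
  rw [← h]
  rfl

/-- The tame character of a Frobenius conjugate. -/
theorem tameHom_frobenius_conj {φ σ : L ≃ₐ[K] L} {q : ℕ} (hφ : A.IsFrobeniusAt φ q)
    (hσ : σ ∈ A.inertiaSubgroupIn K) (c : Lˣ) :
    tameHom A (conj_mem_inertiaIn A hφ.mem_decompositionSubgroup hσ) c = tameHom A hσ c ^ q := by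
  have hφD := hφ.mem_decompositionSubgroup
  have hφiD : φ⁻¹ ∈ A.decompositionSubgroup K := inv_mem hφD
  set c' : Lˣ := Units.map ((φ⁻¹ : L ≃ₐ[K] L) : L →* L) c with hc'
  have hc'val : ((c' : Lˣ) : L) = φ⁻¹ (c : L) := rfl
  have hvc' : A.valuation ((c' : Lˣ) : L) = A.valuation (c : L) := by
    rw [hc'val]; exact valuation_apply_of_mem_decomposition A hφiD _
  have hσD := mem_decomposition_of_mem_inertiaIn A hσ
  have hu : σ (c' : L) / c' ∈ A := apply_div_mem A hσD c'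
  have hφc' : φ ((c' : Lˣ) : L) = c := by
    rw [hc'val]
    show (φ * φ⁻¹) (c : L) = c
    rw [mul_inv_cancel]; rfl
  have hratio : (φ * σ * φ⁻¹) (c : L) / c = φ (σ (c' : L) / c') := by
    rw [map_div₀, hφc']
    rfl
  have hmem : (φ * σ * φ⁻¹) (c : L) / c ∈ A :=
    apply_div_mem A (mul_mem (mul_mem hφD hσD) hφiD) c
  have hφu : φ (σ (c' : L) / c') ∈ A := hratio ▸ hmem
  apply Units.ext
  rw [coe_tameHom A _ c hmem, Units.val_pow_eq_pow_val,
    ← tameHom_eq_of_valuation_eq A hσ c' c hvc', coe_tameHom A hσ c' hu,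
    ← residue_apply_of_isFrobeniusAt A hφ hu hφu]
  congr 1
  exact Subtype.ext hratio

/-- The value group hypothesis: `K` is "discretely valued with uniformizer `q`" inside `A`. -/
def IsTameBase (q : ℕ) : Prop :=
  q.Prime ∧ (q : L) ≠ 0 ∧
    (∀ a : K, a ≠ 0 → ∃ m : ℤ, A.valuation (algebraMap K L a) = A.valuation (q : L) ^ m) ∧
    ∀ ℓ : ℕ, ℓ.Prime → ℓ ≠ q → A.valuation (ℓ : L) = 1

variable [IsAlgClosed L] {q : ℕ}

theorem normal_of_isAlgClosed_h186 : Normal K L :=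
  haveI : IsAlgClosure K L := ⟨inferInstance, inferInstance⟩
  IsAlgClosure.normal K L

/-- For a finite level `E` there is a root `c` of `q` such that every inertia element with
trivial tame character at `c` acts on `E` through a `q`-group. -/
theorem exists_tame_root (hq : IsTameBase (K := K) A q) (E : IntermediateField K L)
    [FiniteDimensional K E] :
    ∃ (N : ℕ) (c : Lˣ), 0 < N ∧ (c : L) ^ N = (q : L) ∧
      ∀ (σ : L ≃ₐ[K] L) (hσ : σ ∈ A.inertiaSubgroupIn K), tameHom A hσ c = 1 →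
        ∃ a : ℕ, ∀ x ∈ E, (σ ^ (q ^ a)) x = x := by
  obtain ⟨hqp, hq0, hKval, hunit⟩ := hq
  haveI : Normal K L := normal_of_isAlgClosed_h186
  set E' : IntermediateField K L := IntermediateField.normalClosure K E L with hE'def
  haveI : Normal K E' := normalClosure.normal K E L
  haveI : FiniteDimensional K E' := normalClosure.is_finiteDimensional K E L
  set d := Module.finrank K E' with hd
  obtain ⟨c, hc⟩ := IsAlgClosed.exists_pow_nat_eq (q : L) (Nat.factorial_pos d)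
  have hc0 : c ≠ 0 := by
    rintro rfl
    rw [zero_pow (Nat.factorial_pos d).ne'] at hc
    exact hq0 hc.symm
  refine ⟨d.factorial, Units.mk0 c hc0, Nat.factorial_pos d, hc, ?_⟩
  intro σ hσ h1
  have hσD := mem_decomposition_of_mem_inertiaIn A hσ
  have hstab : ∀ y ∈ E', σ y ∈ E' := by
    intro y hy
    have := AlgEquiv.restrictNormalHom_apply E' σ ⟨y, hy⟩
    rw [← this]
    exact Subtype.mem _
  have htame : ∀ x ∈ E', x ≠ 0 → A.valuation (σ x - x) < A.valuation x := by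
    intro x hx hx0
    have hint : IsIntegral K x := Algebra.IsIntegral.isIntegral x
    have hdeg : (minpoly K x).natDegree ≤ d := by
      have h1 := IntermediateField.minpoly_eq (⟨x, hx⟩ : E')
      have h2 := minpoly.natDegree_le (A := K) (⟨x, hx⟩ : E')
      rw [h1] at h2
      exact h2
    obtain ⟨m, hm⟩ := exists_valuation_eq_zpow_root_of A hKval
      (fun n hn0 hnd => Nat.dvd_factorial hn0 hnd) hc hx0 hint hdeg
    have hval : A.valuation ((Units.mk0 x hx0 : Lˣ) : L) =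
        A.valuation (((Units.mk0 c hc0) ^ m : Lˣ) : L) := by
      rw [Units.val_mk0, hm, Units.val_zpow_eq_zpow_val, map_zpow₀, Units.val_mk0]
    have h2 := tameHom_eq_of_valuation_eq A hσ _ _ hval
    rw [map_zpow, h1, one_zpow] at h2
    exact (tameHom_eq_one_iff A hσ (Units.mk0 x hx0)).mp h2
  haveI : Finite (E' ≃ₐ[K] E') := inferInstance
  set n := orderOf (AlgEquiv.restrictNormalHom E' σ) with hn
  have hn0 : n ≠ 0 := (orderOf_pos _).ne'
  have hfix : ∀ y ∈ E', (σ ^ n) y = y := by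
    intro y hy
    have h3 := AlgEquiv.restrictNormalHom_apply E' (σ ^ n) ⟨y, hy⟩
    rw [map_pow, hn, pow_orderOf_eq_one] at h3
    exact h3.symm
  obtain ⟨a, ha⟩ := exists_pow_fixes_of_tame_trivial A hσD E' hstab htame hqp hunit hn0 hfix
  exact ⟨a, fun x hx => ha x (IntermediateField.le_normalClosure E hx)⟩

variable {Γ : Type*} [Monoid Γ] (π : (L ≃ₐ[K] L) →* Γ)

/-- The kernel of a suitable tame character is killed by `π`. -/
theorem exists_tame_root_map (hq : IsTameBase (K := K) A q)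
    (hlevel : ∃ E : IntermediateField K L, FiniteDimensional K E ∧
      ∀ σ : L ≃ₐ[K] L, (∀ x ∈ E, σ x = x) → π σ = 1)
    {p : ℕ} (hpq : Nat.Coprime p q)
    (hp : ∀ σ ∈ A.inertiaSubgroupIn K, ∃ a : ℕ, π σ ^ (p ^ a) = 1) :
    ∃ (N : ℕ) (c : Lˣ), 0 < N ∧ (c : L) ^ N = (q : L) ∧
      ∀ (σ : L ≃ₐ[K] L) (hσ : σ ∈ A.inertiaSubgroupIn K), tameHom A hσ c = 1 → π σ = 1 := by
  obtain ⟨E, hEfin, hE⟩ := hlevel
  haveI := hEfin
  obtain ⟨N, c, hN, hc, hker⟩ := exists_tame_root A hq E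
  refine ⟨N, c, hN, hc, fun σ hσ h1 => ?_⟩
  obtain ⟨a, ha⟩ := hker σ hσ h1
  obtain ⟨b, hb⟩ := hp σ hσ
  have h2 : π σ ^ (q ^ a) = 1 := by
    rw [← map_pow]
    exact hE _ ha
  have hcop : Nat.gcd (p ^ b) (q ^ a) = 1 := Nat.Coprime.pow b a hpq
  have := pow_gcd_eq_one.mpr ⟨hb, h2⟩
  rwa [hcop, pow_one] at this

/-- **Tame inertia is cyclic on `p`-power images** (`p` prime to the residue characteristic `q`):
the image under `π` of the inertia group is generated by one element.  General base field. -/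
theorem exists_generator_inertia_image_of (hq : IsTameBase (K := K) A q)
    (hlevel : ∃ E : IntermediateField K L, FiniteDimensional K E ∧
      ∀ σ : L ≃ₐ[K] L, (∀ x ∈ E, σ x = x) → π σ = 1)
    {p : ℕ} (hpq : Nat.Coprime p q)
    (hp : ∀ σ ∈ A.inertiaSubgroupIn K, ∃ a : ℕ, π σ ^ (p ^ a) = 1) :
    ∃ τ₀ ∈ A.inertiaSubgroupIn K, ∀ σ ∈ A.inertiaSubgroupIn K, ∃ j : ℕ, π σ = π τ₀ ^ j := by
  obtain ⟨N, c, hN, hc, hker⟩ := exists_tame_root_map A π hq hlevel hpq hp
  have hqp := hq.1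
  haveI : NeZero N := ⟨hN.ne'⟩
  set Θ := tameAt (K := K) A c with hΘ
  set H : Subgroup (IsLocalRing.ResidueField A)ˣ := Θ.range with hH
  have hHle : H ≤ rootsOfUnity N (IsLocalRing.ResidueField A) := by
    rintro _ ⟨σ, rfl⟩
    rw [mem_rootsOfUnity]
    exact tameHom_pow_eq_one A σ.2 c N (q : K) 1 (map_one _) (by rw [hc]; simp)
  haveI : Finite H :=
    Finite.of_injective (Subgroup.inclusion hHle) (Subgroup.inclusion_injective hHle)
  haveI : IsCyclic H := isCyclic_subgroup_units H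
  obtain ⟨g, hg⟩ := IsCyclic.exists_generator (α := H)
  obtain ⟨τ₀, hτ₀⟩ := g.2
  refine ⟨τ₀.1, τ₀.2, fun σ hσ => ?_⟩
  obtain ⟨k, hk⟩ := Subgroup.mem_zpowers_iff.mp (hg ⟨Θ ⟨σ, hσ⟩, ⟨_, rfl⟩⟩)
  have hk' : Θ τ₀ ^ k = Θ ⟨σ, hσ⟩ := by
    have := congrArg (Subtype.val) hk
    rw [Subgroup.coe_zpow] at this
    rw [hτ₀]
    exact this
  -- the difference lies in the kernel
  set δ : ↥(A.inertiaSubgroupIn K) := ⟨σ, hσ⟩ * (τ₀ ^ k)⁻¹ with hδ
  have hδ1 : Θ δ = 1 := by
    rw [hδ, map_mul, map_inv, map_zpow, hk', mul_inv_cancel]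
  have hπδ : π δ.1 = 1 := hker δ.1 δ.2 hδ1
  have hσeq : σ = δ.1 * (τ₀.1 ^ k) := by
    rw [hδ]
    simp
  -- pass to units to handle the integer exponent
  set u : Γˣ := π.toHomUnits τ₀.1 with hu
  obtain ⟨b, hb⟩ := hp τ₀.1 τ₀.2
  have hufin : IsOfFinOrder u := by
    rw [isOfFinOrder_iff_pow_eq_one]
    refine ⟨p ^ b, Nat.pos_of_ne_zero ?_, ?_⟩
    · intro h0
      have hp0 : p = 0 := by
        by_contra hne
        exact (pow_ne_zero b hne) h0
      subst hp0
      rw [Nat.coprime_zero_left] at hpq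
      exact hqp.ne_one hpq
    · apply Units.ext
      rw [Units.val_pow_eq_pow_val, hu, MonoidHom.coe_toHomUnits, hb, Units.val_one]
  have hopos : 0 < orderOf u := hufin.orderOf_pos
  refine ⟨(k % (orderOf u : ℤ)).toNat, ?_⟩
  have h1 : π (τ₀.1 ^ k) = ((u ^ k : Γˣ) : Γ) := by
    rw [hu, ← map_zpow, MonoidHom.coe_toHomUnits]
  have h2 : (u ^ k : Γˣ) = u ^ (k % (orderOf u : ℤ)).toNat := by
    rw [← zpow_mod_orderOf, ← zpow_natCast,
      Int.toNat_of_nonneg (Int.emod_nonneg _ (by exact_mod_cast hopos.ne'))]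
  rw [hσeq, map_mul, hπδ, one_mul, h1, h2, Units.val_pow_eq_pow_val, hu,
    MonoidHom.coe_toHomUnits]

/-- **Frobenius acts on tame inertia by the `q`-th power.**  General base field. -/
theorem map_frobenius_conj_inertia_of (hq : IsTameBase (K := K) A q)
    (hlevel : ∃ E : IntermediateField K L, FiniteDimensional K E ∧
      ∀ σ : L ≃ₐ[K] L, (∀ x ∈ E, σ x = x) → π σ = 1)
    {p : ℕ} (hpq : Nat.Coprime p q)
    (hp : ∀ σ ∈ A.inertiaSubgroupIn K, ∃ a : ℕ, π σ ^ (p ^ a) = 1)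
    {φ : L ≃ₐ[K] L} (hφ : A.IsFrobeniusAt φ q) {σ : L ≃ₐ[K] L}
    (hσ : σ ∈ A.inertiaSubgroupIn K) :
    π (φ * σ * φ⁻¹) = π σ ^ q := by
  obtain ⟨N, c, hN, hc, hker⟩ := exists_tame_root_map A π hq hlevel hpq hp
  have hconj := conj_mem_inertiaIn A hφ.mem_decompositionSubgroup hσ
  set σ' : ↥(A.inertiaSubgroupIn K) := ⟨σ, hσ⟩ with hσ'
  set κ : ↥(A.inertiaSubgroupIn K) := ⟨φ * σ * φ⁻¹, hconj⟩ with hκ
  have h1 : tameAt (K := K) A c κ = tameAt (K := K) A c σ' ^ q :=
    tameHom_frobenius_conj A hφ hσ c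
  set δ : ↥(A.inertiaSubgroupIn K) := κ * (σ' ^ q)⁻¹ with hδ
  have hδ1 : tameAt (K := K) A c δ = 1 := by
    rw [hδ, map_mul, map_inv, map_pow, h1, mul_inv_cancel]
  have hπδ : π δ.1 = 1 := hker δ.1 δ.2 hδ1
  have heq : φ * σ * φ⁻¹ = δ.1 * σ ^ q := by
    rw [hδ]
    simp [hκ, hσ']
  rw [heq, map_mul, hπδ, one_mul, map_pow]

end General

section Rat

variable {L : Type*} [Field L] [Algebra ℚ L] [Algebra.IsAlgebraic ℚ L] [IsAlgClosed L]
  (A : ValuationSubring L) {q : ℕ}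

theorem isTameBase_rat (hq : A.LiesOverPrime q) (hqp : q.Prime) : IsTameBase (K := ℚ) A q := by
  haveI : CharZero L := charZero_of_injective_ringHom (algebraMap ℚ L).injective
  exact ⟨hqp, Nat.cast_ne_zero.mpr hqp.ne_zero,
    fun a ha => exists_valuation_rat_eq_zpow A hq hqp ha,
    fun ℓ hℓ hne =>
      valuation_natCast_eq_one_of_coprime A hq ((Nat.coprime_primes hℓ hqp).mpr hne)⟩

variable {Γ : Type*} [Monoid Γ] (π : (L ≃ₐ[ℚ] L) →* Γ)

/-- **Tame inertia is cyclic on `p`-power images**: `A` over the prime `q`, `p` prime to `q`,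
`π` of finite level with `π σ` killed by a power of `p` for every `σ` in the inertia group.
Then the image under `π` of the inertia group is generated by one element. -/
theorem exists_generator_inertia_image (hq : A.LiesOverPrime q) (hqp : q.Prime)
    (hlevel : ∃ E : IntermediateField ℚ L, FiniteDimensional ℚ E ∧
      ∀ σ : L ≃ₐ[ℚ] L, (∀ x ∈ E, σ x = x) → π σ = 1)
    {p : ℕ} (hpq : Nat.Coprime p q)
    (hp : ∀ σ ∈ A.inertiaSubgroupIn ℚ, ∃ a : ℕ, π σ ^ (p ^ a) = 1) :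
    ∃ τ₀ ∈ A.inertiaSubgroupIn ℚ, ∀ σ ∈ A.inertiaSubgroupIn ℚ, ∃ j : ℕ, π σ = π τ₀ ^ j :=
  exists_generator_inertia_image_of A π (isTameBase_rat A hq hqp) hlevel hpq hp

/-- **Frobenius acts on tame inertia by the `q`-th power.** -/
theorem map_frobenius_conj_inertia (hq : A.LiesOverPrime q) (hqp : q.Prime)
    (hlevel : ∃ E : IntermediateField ℚ L, FiniteDimensional ℚ E ∧
      ∀ σ : L ≃ₐ[ℚ] L, (∀ x ∈ E, σ x = x) → π σ = 1)
    {p : ℕ} (hpq : Nat.Coprime p q)
    (hp : ∀ σ ∈ A.inertiaSubgroupIn ℚ, ∃ a : ℕ, π σ ^ (p ^ a) = 1)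
    {φ : L ≃ₐ[ℚ] L} (hφ : A.IsFrobeniusAt φ q) {σ : L ≃ₐ[ℚ] L}
    (hσ : σ ∈ A.inertiaSubgroupIn ℚ) :
    π (φ * σ * φ⁻¹) = π σ ^ q :=
  map_frobenius_conj_inertia_of A π (isTameBase_rat A hq hqp) hlevel hpq hp hφ hσ

end Rat

end Fermat.Agent.S56.H186
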